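import Fermat.Agent.CopelandErdos.Stream
import Fermat.Agent.Root.SummaryPrimeNumberTheorem
import Mathlib.Analysis.SpecialFunctions.Pow.Asymptotics
import Mathlib.NumberTheory.Real.Irrational

/-!
# The theorem of Copeland and Erdős
-/

set_option autoImplicit false

noncomputable section

open Finset Filter Topology

namespace FA.CopelandErdos

variable {b : ℕ} {a : ℕ → ℕ}

/-- The growth condition. -/
def Subpolynomial (a : ℕ → ℕ) : Prop :=
  ∀ ε : ℝ, 0 < ε → ∀ᶠ n : ℕ in atTop, (a n : ℝ) ≤ (n : ℝ) ^ (1 + ε)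

theorem tendsto_wordStart_div (hb : 2 ≤ b) (hmono : StrictMono a) :
    Tendsto (fun n : ℕ => (wordStart b a n : ℝ) / n) atTop atTop := by
  refine tendsto_atTop.2 fun R => ?_
  obtain ⟨M, hM⟩ := exists_nat_gt (2 * R)
  filter_upwards [eventually_ge_atTop (2 * b ^ M)] with n hn
  have hn0 : 0 < n := lt_of_lt_of_le (by positivity) hn
  have h1 : M * (n - b ^ M) ≤ wordStart b a n := by
    have h2 : ∀ m ∈ Ico (b ^ M) n, M ≤ wordLen b a m := fun m hm => by
      have h3 := (mem_Ico.1 hm).1
      have h4 : M ≤ Nat.log b (a m) := Nat.le_log_of_pow_le hb (h3.trans hmono.le_apply)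
      rw [wordLen]
      omega
    have h5 := card_nsmul_le_sum (Ico (b ^ M) n) (fun m => wordLen b a m) M h2
    rw [Nat.card_Ico, smul_eq_mul, mul_comm] at h5
    refine h5.trans (sum_le_sum_of_subset fun m hm => ?_)
    rw [mem_range]
    exact (mem_Ico.1 hm).2
  have h6 : M * n ≤ 2 * (M * (n - b ^ M)) := by
    rw [mul_left_comm]
    exact Nat.mul_le_mul_left M (by omega)
  rw [le_div_iff₀ (by exact_mod_cast hn0)]
  have h7 : (M : ℝ) * n ≤ 2 * (wordStart b a n : ℝ) := by
    exact_mod_cast h6.trans (Nat.mul_le_mul_left 2 h1)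
  have hn' : (0 : ℝ) ≤ n := Nat.cast_nonneg n
  nlinarith

theorem tendsto_wordLen (hb : 2 ≤ b) (hmono : StrictMono a) :
    Tendsto (fun n : ℕ => wordLen b a n) atTop atTop := by
  refine tendsto_atTop.2 fun M => ?_
  filter_upwards [eventually_ge_atTop (b ^ M)] with n hn
  have := Nat.le_log_of_pow_le hb (hn.trans hmono.le_apply)
  rw [wordLen]
  omega

/-- The exceptional words are negligible. -/
theorem eventually_exception_le (hb : 2 ≤ b) (hmono : StrictMono a) (ha : ∀ n, 0 < a n)
    (hgrow : Subpolynomial a) {τ : ℝ} (hτ1 : 1 ≤ τ) (hτb : τ < b) :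
    ∀ᶠ n : ℕ in atTop, ((wordLen b a n : ℝ) + 1) ^ 2 * τ ^ wordLen b a n ≤ n := by
  have hbR : (1 : ℝ) < b := by exact_mod_cast hb
  set σ := (τ + b) / 2 with hσ
  have hτσ : τ < σ := by linarith
  have hσb : σ < b := by linarith
  have hσ1 : 1 < σ := by linarith
  have hr0 : 0 < τ / σ := div_pos (by linarith) (by linarith)
  have hr1 : τ / σ < 1 := (div_lt_one (by linarith)).2 hτσ
  have hsmall : ∀ᶠ L : ℕ in atTop, ((L : ℝ) + 1) ^ 2 * (τ / σ) ^ L ≤ 1 := by
    have h1 := ((tendsto_pow_const_mul_const_pow_of_lt_one 2 hr0.le hr1).comp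
      (tendsto_add_atTop_nat 1))
    refine (h1.eventually_le_const hr0).mono fun L hL => ?_
    simp only [Function.comp, Nat.cast_add, Nat.cast_one, pow_succ _ L] at hL
    rw [← mul_assoc] at hL
    exact (mul_le_iff_le_one_left hr0).1 hL
  set e := Real.logb b σ with he
  have he0 : 0 < e := Real.logb_pos hbR hσ1
  have he1 : e < 1 := by
    rw [he, Real.logb_lt_iff_lt_rpow hbR (by linarith), Real.rpow_one]
    exact hσb
  have hσe : (b : ℝ) ^ e = σ := Real.rpow_logb (by linarith) hbR.ne' (by linarith)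
  have hbig := (tendsto_rpow_atTop (by linarith : 0 < (1 - e) / 2)).comp
    (tendsto_natCast_atTop_atTop (R := ℝ))
  filter_upwards [(tendsto_wordLen hb hmono).eventually hsmall,
    hgrow ((1 - e) / (2 * e)) (div_pos (by linarith) (by linarith)),
    hbig.eventually_ge_atTop ((b : ℝ) ^ e), eventually_ge_atTop 1] with n hL hn hpow hn1
  set L := wordLen b a n with hLd
  have hn0 : (0 : ℝ) < n := by exact_mod_cast hn1
  have h1 : τ ^ L = (τ / σ) ^ L * σ ^ L := by
    rw [← mul_pow, div_mul_cancel₀ _ (by linarith : σ ≠ 0)]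
  rw [h1, ← mul_assoc]
  refine (mul_le_of_le_one_left (by positivity) hL).trans ?_
  have hbL : (b : ℝ) ^ L ≤ b * (n : ℝ) ^ (1 + (1 - e) / (2 * e)) := by
    rw [hLd, wordLen, pow_succ']
    refine mul_le_mul_of_nonneg_left (le_trans ?_ hn) (by linarith)
    exact_mod_cast Nat.pow_log_le_self b (ha n).ne'
  calc σ ^ L = ((b : ℝ) ^ L) ^ e := by
        rw [← Real.rpow_natCast_mul (by linarith), mul_comm, Real.rpow_mul_natCast (by linarith),
          hσe]
    _ ≤ ((b : ℝ) * (n : ℝ) ^ (1 + (1 - e) / (2 * e))) ^ e :=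
        Real.rpow_le_rpow (by positivity) hbL he0.le
    _ = (b : ℝ) ^ e * (n : ℝ) ^ ((1 + e) / 2) := by
        rw [Real.mul_rpow (by linarith) (by positivity), ← Real.rpow_mul hn0.le]
        congr 2
        field_simp
        ring
    _ ≤ (n : ℝ) ^ ((1 - e) / 2) * (n : ℝ) ^ ((1 + e) / 2) :=
        mul_le_mul_of_nonneg_right hpow (by positivity)
    _ = n := by rw [← Real.rpow_add hn0]; ring_nf; exact Real.rpow_one _

/-- The upper bound for one block. -/
theorem eventually_count_le (hb : 2 ≤ b) (hmono : StrictMono a) (ha : ∀ n, 0 < a n)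
    (hgrow : Subpolynomial a) {k V : ℕ} (hk : 0 < k) (hV : V < b ^ k) {c : ℝ}
    (hc : 1 / (b : ℝ) ^ k < c) :
    ∀ᶠ N : ℕ in atTop, (Nat.count (fun i => streamWindow b a k i = V) N : ℝ) ≤ c * N := by
  classical
  set c' := (1 / (b : ℝ) ^ k + c) / 2 with hc'
  obtain ⟨C, τ, hC, hτ1, hτb, hbad⟩ := card_bad_le hb hk (c := c') (by linarith)
  have hc'0 : 0 ≤ c' := by
    have : (0 : ℝ) ≤ 1 / (b : ℝ) ^ k := by positivity
    linarith
  set K := (c' + 1) * (2 * k) + c' + C with hK
  have hev : ∀ᶠ n : ℕ in atTop,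
      (Nat.count (fun i => streamWindow b a k i = V) (wordStart b a (n + 1)) : ℝ) ≤
        c * wordStart b a n := by
    filter_upwards [eventually_exception_le hb hmono ha hgrow hτ1 hτb,
      (tendsto_wordStart_div (a := a) hb hmono).eventually_ge_atTop (K / (c - c')),
      eventually_ge_atTop 1] with n hexc hstart hn1
    set L := wordLen b a n with hL
    set bad := (range (n + 1)).filter fun m =>
      c' * (wordLen b a m + k : ℕ) < winCount b k V (wordLen b a m) (a m) with hbd
    have hlenle : ∀ m ∈ range (n + 1), wordLen b a m ≤ L := fun m hm => by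
      rw [hL, wordLen, wordLen]
      exact Nat.succ_le_succ (Nat.log_mono_right (hmono.monotone (by
        have := mem_range.1 hm
        omega)))
    have hcardbad : (#bad : ℝ) ≤ ((L : ℝ) + 1) * (C * τ ^ L) := by
      have h1 : bad.image a ⊆ (range (L + 1)).biUnion fun l => (range (b ^ l)).filter
          fun x => c' * (l + k : ℕ) < winCount b k V l x := by
        intro x hx
        obtain ⟨m, hm, rfl⟩ := mem_image.1 hx
        obtain ⟨hm1, hm2⟩ := mem_filter.1 hm
        exact mem_biUnion.2 ⟨wordLen b a m, mem_range.2 (Nat.lt_succ_of_le (hlenle m hm1)),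
          mem_filter.2 ⟨mem_range.2 (Nat.lt_pow_succ_log_self hb _), hm2⟩⟩
      rw [← card_image_of_injective bad hmono.injective]
      refine (Nat.cast_le.2 ((card_le_card h1).trans card_biUnion_le)).trans ?_
      rw [Nat.cast_sum]
      refine (sum_le_sum fun l hl => (hbad V hV l).trans (mul_le_mul_of_nonneg_left
        (pow_le_pow_right₀ hτ1 (Nat.lt_succ_iff.1 (mem_range.1 hl))) hC)).trans_eq ?_
      rw [sum_const, card_range, nsmul_eq_mul]
      push_cast
      ring
    have hsum : ((∑ m ∈ range (n + 1), (winCount b k V (wordLen b a m) (a m) + k) : ℕ) : ℝ) ≤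
        c' * (wordStart b a (n + 1) + (n + 1) * k) + (L : ℝ) * #bad + (n + 1) * k := by
      rw [sum_add_distrib, sum_const, card_range, smul_eq_mul, Nat.cast_add,
        ← sum_filter_add_sum_filter_not (range (n + 1)) (fun m =>
          c' * (wordLen b a m + k : ℕ) < winCount b k V (wordLen b a m) (a m)),
        Nat.cast_add, ← hbd]
      push_cast
      have h2 : (∑ m ∈ bad, (winCount b k V (wordLen b a m) (a m) : ℝ)) ≤ (L : ℝ) * #bad := by
        refine (sum_le_card_nsmul bad _ (L : ℝ) fun m hm => ?_).trans_eq (by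
          rw [nsmul_eq_mul, mul_comm])
        exact Nat.cast_le.2 ((winCount_le _ _ _ _ _).trans (hlenle m (mem_filter.1 hm).1))
      have h3 : ∑ m ∈ range (n + 1), c' * ((wordLen b a m + k : ℕ) : ℝ) =
          c' * (wordStart b a (n + 1) + (n + 1) * k) := by
        rw [← mul_sum, wordStart]
        push_cast
        rw [sum_add_distrib, sum_const, card_range, nsmul_eq_mul]
        push_cast
        ring
      have h4 : (∑ m ∈ (range (n + 1)).filter (fun m =>
          ¬c' * (wordLen b a m + k : ℕ) < winCount b k V (wordLen b a m) (a m)),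
            (winCount b k V (wordLen b a m) (a m) : ℝ)) ≤
          ∑ m ∈ range (n + 1), c' * ((wordLen b a m + k : ℕ) : ℝ) :=
        (sum_le_sum fun m hm => not_lt.1 (mem_filter.1 hm).2).trans
          (sum_le_sum_of_subset_of_nonneg (filter_subset _ _) fun m _ _ => by positivity)
      push_cast at h3 h4
      linarith
    have hocc := (Nat.cast_le.2 (count_window_start_le (b := b) (a := a) hk V (n + 1))).trans hsum
    rw [wordStart_succ, ← hL] at hocc ⊢
    push_cast at hocc
    have hLsq : (L : ℝ) ≤ ((L : ℝ) + 1) ^ 2 * τ ^ L := by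
      have h5 : (1 : ℝ) ≤ τ ^ L := one_le_pow₀ hτ1
      nlinarith [Nat.cast_nonneg (α := ℝ) L]
    have hLb : (L : ℝ) * #bad ≤ C * (((L : ℝ) + 1) ^ 2 * τ ^ L) := by
      refine (mul_le_mul_of_nonneg_left hcardbad (Nat.cast_nonneg L)).trans ?_
      have : 0 ≤ C * τ ^ L := mul_nonneg hC (by linarith [one_le_pow₀ hτ1 (n := L)])
      nlinarith [Nat.cast_nonneg (α := ℝ) L]
    have hnR : (1 : ℝ) ≤ n := by exact_mod_cast hn1
    rw [le_div_iff₀ (by linarith)] at hstart
    rw [div_mul_eq_mul_div, div_le_iff₀ (by linarith)] at hstart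
    have h6 : ((n : ℝ) + 1) * k ≤ 2 * k * n := by nlinarith [Nat.cast_nonneg (α := ℝ) k]
    have h7 := mul_le_mul_of_nonneg_left (hLsq.trans hexc) hc'0
    have h8 := mul_le_mul_of_nonneg_left hexc hC
    have h9 := mul_le_mul_of_nonneg_left h6 (by linarith : 0 ≤ c' + 1)
    rw [hK] at hstart
    linarith
  obtain ⟨n₀, hn₀⟩ := eventually_atTop.1 hev
  filter_upwards [eventually_ge_atTop (wordStart b a (n₀ + 1))] with N hN
  set n := indexOf b a N with hn
  have hlt : N < wordStart b a (n + 1) := Nat.find_spec (exists_lt_wordStart b a N)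
  have hnn : n₀ ≤ n := by
    by_contra h
    have := wordStart_mono (b := b) (a := a) (show n + 1 ≤ n₀ + 1 by omega)
    omega
  have hle : wordStart b a n ≤ N := by
    rcases Nat.eq_zero_or_pos n with h0 | h0
    · rw [h0]
      simp [wordStart]
    · by_contra h
      exact Nat.find_min (exists_lt_wordStart b a N) (show n - 1 < n by omega)
        (by rw [Nat.sub_add_cancel h0]; omega)
  refine le_trans (Nat.cast_le.2 (Nat.count_monotone _ hlt.le)) ((hn₀ n hnn).trans ?_)
  refine mul_le_mul_of_nonneg_left (Nat.cast_le.2 hle) ?_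
  have : (0 : ℝ) ≤ 1 / (b : ℝ) ^ k := by positivity
  linarith

theorem sum_count_window (hb : 0 < b) (k N : ℕ) :
    ∑ V ∈ range (b ^ k), Nat.count (fun i => streamWindow b a k i = V) N = N := by
  simp only [Nat.count_eq_card_filter_range]
  rw [← card_eq_sum_card_fiberwise fun i _ => mem_range.2 (streamWindow_lt hb k i), card_range]

/-- **Normality.** -/
theorem tendsto_frequency (hb : 2 ≤ b) (hmono : StrictMono a) (ha : ∀ n, 0 < a n)
    (hgrow : Subpolynomial a) {k V : ℕ} (hk : 0 < k) (hV : V < b ^ k) :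
    Tendsto (fun N : ℕ => (Nat.count (fun i => streamWindow b a k i = V) N : ℝ) / N) atTop
      (𝓝 (1 / (b : ℝ) ^ k)) := by
  set B : ℝ := (b : ℝ) ^ k with hB
  have hB0 : 0 < B := pow_pos (by exact_mod_cast (show 0 < b by omega)) k
  rw [Metric.tendsto_atTop]
  intro ε hε
  obtain ⟨N₀, hN₀⟩ := eventually_atTop.1 ((eventually_gt_atTop 0).and
    ((eventually_all_finset (range (b ^ k))).2 fun W hW =>
      eventually_count_le hb hmono ha hgrow hk (mem_range.1 hW)
        (c := 1 / B + ε / (2 * B)) (by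
          have : 0 < ε / (2 * B) := by positivity
          linarith)))
  refine ⟨N₀, fun N hN => ?_⟩
  obtain ⟨hN0, hle⟩ := hN₀ N hN
  have hNR : (0 : ℝ) < N := Nat.cast_pos.2 hN0
  set f : ℕ → ℝ := fun W => (Nat.count (fun i => streamWindow b a k i = W) N : ℝ) with hf
  have hsum : ∑ W ∈ range (b ^ k), f W = N := by
    simp only [hf]
    exact_mod_cast sum_count_window (a := a) (show 0 < b by omega) k N
  rw [← add_sum_erase (range (b ^ k)) f (mem_range.2 hV)] at hsum
  have h1 : f V ≤ (1 / B + ε / (2 * B)) * N := hle V (mem_range.2 hV)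
  have h2 : ∑ W ∈ (range (b ^ k)).erase V, f W ≤ (B - 1) * ((1 / B + ε / (2 * B)) * N) := by
    refine (sum_le_sum fun W hW => hle W (mem_erase.1 hW).2).trans_eq ?_
    rw [sum_const, card_erase_of_mem (mem_range.2 hV), card_range, nsmul_eq_mul,
      Nat.cast_sub (Nat.one_le_pow _ _ (by omega))]
    push_cast
    rw [hB]
  have hB1 : 1 ≤ B := one_le_pow₀ (by exact_mod_cast (show 1 ≤ b by omega))
  have h3 : (B - 1) * ((1 / B + ε / (2 * B)) * N) = N - N / B + (B - 1) / B * (ε / 2 * N) := by
    field_simp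
  have h4 : (B - 1) / B * (ε / 2 * N) ≤ ε / 2 * N :=
    mul_le_of_le_one_left (by positivity) ((div_le_one hB0).2 (by linarith))
  have h5 : (1 / B + ε / (2 * B)) * N = N / B + 1 / B * (ε / 2 * N) := by
    field_simp
  have h6 : 1 / B * (ε / 2 * N) ≤ ε / 2 * N :=
    mul_le_of_le_one_left (by positivity) ((div_le_one hB0).2 hB1)
  have h7 : |f V - N / B| ≤ ε / 2 * N := abs_le.2 ⟨by linarith, by linarith⟩
  rw [Real.dist_eq, show (Nat.count (fun i => streamWindow b a k i = V) N : ℝ) / N - 1 / B =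
    (f V - N / B) / N by rw [hf]; field_simp, abs_div, abs_of_pos hNR, div_lt_iff₀ hNR]
  nlinarith

theorem pow_mul_ofDigits_window {d : ℕ → Fin b} (hb : 0 < b) (i : ℕ) : ∀ k : ℕ,
    (b : ℝ) ^ k * (Real.ofDigits fun j => d (j + i)) =
      (FA.NormalNumbers.blockValue b k (fun j => (d (i + j) : ℕ)) : ℕ) +
        Real.ofDigits fun j => d (j + (i + k))
  | 0 => by simp [FA.NormalNumbers.blockValue]
  | k + 1 => by
      have h := Real.ofDigits_eq_sum_add_ofDigits (fun j => d (j + (i + k))) 1
      rw [pow_succ', mul_assoc, pow_mul_ofDigits_window hb i k, FA.NormalNumbers.blockValue, h,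
        sum_range_one, Real.ofDigitsTerm]
      simp only [zero_add, pow_one]
      rw [show (fun j => d (j + 1 + (i + k))) = fun j => d (j + (i + (k + 1))) from
        funext fun j => by congr 1; omega]
      have hb0 : (b : ℝ) ≠ 0 := Nat.cast_ne_zero.2 hb.ne'
      push_cast
      field_simp
      ring

/-- **Irrationality** of a normal number. -/
theorem irrational_of_normal (hb : 2 ≤ b) {d : ℕ → Fin b}
    (hd : ∀ i, (d i : ℕ) = streamDigit b a i) (hmono : StrictMono a) (ha : ∀ n, 0 < a n)
    (hgrow : Subpolynomial a) : Irrational (Real.ofDigits d) := by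
  rintro ⟨q, hq⟩
  obtain ⟨k, hk⟩ := pow_unbounded_of_one_lt (2 * (q.den : ℝ))
    (show (1 : ℝ) < b by exact_mod_cast hb)
  have hden : (1 : ℝ) ≤ q.den := by exact_mod_cast q.pos
  have hk0 : 0 < k := Nat.pos_of_ne_zero fun e => by rw [e, pow_zero] at hk; linarith
  have hlim := tendsto_frequency hb hmono ha hgrow hk0
    (V := 1) (Nat.one_lt_pow hk0.ne' (by omega))
  have hnone : ∀ i, streamWindow b a k i ≠ 1 := by
    intro i hi
    have h := pow_mul_ofDigits_window (d := d) (by omega : 0 < b) i k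
    simp only [hd] at h
    rw [show FA.NormalNumbers.blockValue b k (fun j => streamDigit b a (i + j)) = 1 from hi] at h
    push_cast at h
    have h0 := Real.ofDigits_nonneg fun j => d (j + (i + k))
    have h1 := Real.ofDigits_le_one fun j => d (j + (i + k))
    have h2 := pow_mul_ofDigits_window (d := d) (by omega : 0 < b) 0 i
    simp only [Nat.add_zero, zero_add] at h2
    rw [← hq] at h2
    set Z := Real.ofDigits fun j => d (j + i) with hZ
    set W := FA.NormalNumbers.blockValue b i (fun j => (d j : ℕ))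
    obtain ⟨z, hz⟩ : ∃ z : ℤ, Z * q.den = z := ⟨(b : ℤ) ^ i * q.num - W * q.den, by
      have e : (q : ℝ) * q.den = q.num := by exact_mod_cast Rat.mul_den_eq_num q
      push_cast
      rw [← e, ← mul_assoc, h2]
      ring⟩
    have hbk : (0 : ℝ) < (b : ℝ) ^ k := pow_pos (by exact_mod_cast (show 0 < b by omega)) k
    have hZ0 : 0 < Z := by
      by_contra hc
      nlinarith [mul_nonpos_of_nonneg_of_nonpos hbk.le (not_lt.1 hc)]
    have hz0 : (0 : ℝ) < (z : ℝ) := by rw [← hz]; positivity
    have hz1 : (1 : ℝ) ≤ (z : ℝ) := by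
      exact_mod_cast (show (1 : ℤ) ≤ z from Int.cast_pos.1 hz0)
    nlinarith [mul_le_mul_of_nonneg_left hz1 hbk.le]
  have hzero : ∀ N : ℕ, (Nat.count (fun i => streamWindow b a k i = 1) N : ℝ) / N = 0 := fun N => by
    rw [Nat.count_eq_card_filter_range, filter_eq_empty_iff.2 fun i _ => hnone i]
    simp
  simp only [hzero] at hlim
  have h8 := tendsto_nhds_unique tendsto_const_nhds hlim
  have h9 : 0 < 1 / (b : ℝ) ^ k := by
    have : (0 : ℝ) < b := by exact_mod_cast (show 0 < b by omega)
    positivity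
  linarith

/-- The primes grow slowly enough. -/
theorem subpolynomial_nth_prime : Subpolynomial fun n => Nat.nth Nat.Prime n := by
  intro ε hε
  set η := min (ε / (4 + 2 * ε)) (1 / 2) with hη
  have hη0 : 0 < η := lt_min (by positivity) (by norm_num)
  have hη1 : η ≤ 1 / 2 := min_le_right _ _
  have hηε : η * (4 + 2 * ε) ≤ ε := by
    have := min_le_left (ε / (4 + 2 * ε)) (1 / 2)
    rwa [← hη, le_div_iff₀ (by linarith)] at this
  have hpi : ∀ᶠ x : ℝ in atTop, x ^ (1 - η) ≤ (Nat.primeCounting ⌊x⌋₊ : ℝ) := by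
    filter_upwards [PNT.Summary.prime_number_theorem.eventually_const_lt
        (show (1 / 2 : ℝ) < 1 by norm_num),
      (isLittleO_log_rpow_atTop hη0).bound (show (0 : ℝ) < 1 / 2 by norm_num),
      eventually_gt_atTop 1] with x h1 h2 hx
    have hl : 0 < Real.log x := Real.log_pos hx
    rw [Real.norm_of_nonneg hl.le, Real.norm_of_nonneg (by positivity)] at h2
    rw [lt_div_iff₀ (by linarith)] at h1
    have e : x ^ (1 - η) * x ^ η = x := by
      rw [← Real.rpow_add (by linarith), sub_add_cancel, Real.rpow_one]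
    by_contra hc
    have h3 := mul_le_mul (not_le.1 hc).le h2 hl.le (by positivity)
    nlinarith
  have hnth : Tendsto (fun n : ℕ => (Nat.nth Nat.Prime n : ℝ)) atTop atTop :=
    tendsto_natCast_atTop_atTop.comp
      (Nat.nth_strictMono Nat.infinite_setOfPred_prime).tendsto_atTop
  have hbig := (tendsto_rpow_atTop (by linarith : 0 < ε / 2)).comp
    (tendsto_natCast_atTop_atTop (R := ℝ))
  filter_upwards [hnth.eventually hpi, hbig.eventually_ge_atTop ((2 : ℝ) ^ (1 + ε / 2)),
    eventually_ge_atTop 1] with n h1 h2 hn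
  set p := Nat.nth Nat.Prime n with hp
  have hcount : Nat.primeCounting p = n + 1 := by
    rw [Nat.primeCounting, Nat.primeCounting', hp, Nat.count_succ,
      if_pos (Nat.prime_nth_prime n), Nat.count_nth_of_infinite Nat.infinite_setOfPred_prime]
  rw [Nat.floor_natCast, hcount] at h1
  have hp1 : (1 : ℝ) ≤ p := by exact_mod_cast (Nat.prime_nth_prime n).one_le
  have hn1 : (1 : ℝ) ≤ n := by exact_mod_cast hn
  push_cast at h1
  calc (p : ℝ) ≤ ((p : ℝ) ^ (1 - η)) ^ (1 + ε / 2) := by
        rw [← Real.rpow_mul (by linarith)]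
        refine le_trans (le_of_eq (Real.rpow_one _).symm) (Real.rpow_le_rpow_of_exponent_le hp1 ?_)
        nlinarith
    _ ≤ (2 * (n : ℝ)) ^ (1 + ε / 2) :=
        Real.rpow_le_rpow (by positivity) (by linarith) (by linarith)
    _ = (2 : ℝ) ^ (1 + ε / 2) * (n : ℝ) ^ (1 + ε / 2) :=
        Real.mul_rpow zero_le_two (by linarith)
    _ ≤ (n : ℝ) ^ (ε / 2) * (n : ℝ) ^ (1 + ε / 2) :=
        mul_le_mul_of_nonneg_right h2 (by positivity)
    _ = (n : ℝ) ^ (1 + ε) := by
        rw [← Real.rpow_add (by linarith)]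
        congr 1
        ring

end FA.CopelandErdos

end
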