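import Mathlib.Analysis.SpecialFunctions.Pow.Real
import Mathlib.Analysis.SpecialFunctions.Log.Basic

/-!
# Numbers in which a block is too frequent

By an exponential moment the numbers below `b ^ L` in which a block of length `k` begins at more
than `c (L + k)` places, `c > b ^ (-k)`, are at most `C τ ^ L` in number, with `τ < b`.
-/

set_option autoImplicit false

noncomputable section

open Finset

namespace FA.CopelandErdos

/-- The digits equal to `V` among the first `J` digits of `q` in base `B`. -/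
def hits (B V J q : ℕ) : ℕ := #((range J).filter fun s => q / B ^ s % B = V)

/-- The places below `L` at which the block of value `V` begins in `m`. -/
def winCount (b k V L m : ℕ) : ℕ := #((range L).filter fun t => m / b ^ t % b ^ k = V)

theorem winCount_le (b k V L m : ℕ) : winCount b k V L m ≤ L :=
  (card_filter_le _ _).trans_eq (card_range L)

theorem sum_range_mul' {M : Type*} [AddCommMonoid M] (f : ℕ → M) (B : ℕ) : ∀ Q : ℕ,
    ∑ m ∈ range (Q * B), f m = ∑ q ∈ range Q, ∑ d ∈ range B, f (q * B + d)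
  | 0 => by simp
  | Q + 1 => by rw [Nat.succ_mul, sum_range_add, sum_range_succ, sum_range_mul' f B Q]

theorem hits_succ {B V : ℕ} (J : ℕ) {d : ℕ} (hd : d < B) (q : ℕ) :
    hits B V (J + 1) (q * B + d) = (if d = V then 1 else 0) + hits B V J q := by
  have hB : 0 < B := lt_of_le_of_lt (Nat.zero_le d) hd
  unfold hits
  rw [card_filter, card_filter, sum_range_succ']
  have h0 : (q * B + d) % B = d := by rw [Nat.mul_add_mod', Nat.mod_eq_of_lt hd]
  have hs : ∀ s, (q * B + d) / B ^ (s + 1) = q / B ^ s := fun s => by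
    rw [pow_succ', ← Nat.div_div_eq_div_mul, Nat.mul_comm q B, Nat.mul_add_div hB,
      Nat.div_eq_of_lt hd, Nat.add_zero]
  simp only [hs, pow_zero, Nat.div_one, h0]
  rw [Nat.add_comm]

/-- The generating function of the hits. -/
theorem sum_pow_hits {B V : ℕ} (hV : V < B) (x : ℝ) : ∀ J : ℕ,
    ∑ q ∈ range (B ^ J), x ^ hits B V J q = ((B : ℝ) - 1 + x) ^ J
  | 0 => by simp [hits]
  | J + 1 => by
      rw [pow_succ, sum_range_mul', pow_succ, ← sum_pow_hits hV x J, sum_mul]
      refine sum_congr rfl fun q _ => ?_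
      rw [sum_congr rfl fun d hd => by rw [hits_succ J (mem_range.1 hd), pow_add], ← sum_mul,
        mul_comm]
      congr 1
      rw [← add_sum_erase (range B) _ (mem_range.2 hV), if_pos rfl, pow_one,
        sum_congr rfl fun d hd => by rw [if_neg (mem_erase.1 hd).1, pow_zero], sum_const,
        card_erase_of_mem (mem_range.2 hV), card_range, nsmul_eq_mul, mul_one,
        Nat.cast_sub (by omega), Nat.cast_one]
      ring

theorem winCount_le_sum {b k : ℕ} (hk : 0 < k) (V L m : ℕ) :
    winCount b k V L m ≤ ∑ r ∈ range k, hits (b ^ k) V (L / k + 1) (m / b ^ r) := by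
  unfold winCount hits
  rw [← card_sigma (range k)
    fun r => (range (L / k + 1)).filter fun s => m / b ^ r / (b ^ k) ^ s % b ^ k = V]
  refine card_le_card_of_injOn (fun t => (⟨t % k, t / k⟩ : Σ _ : ℕ, ℕ)) (fun t ht => ?_)
    fun t _ u _ h => ?_
  · rw [mem_coe] at ht ⊢
    simp only [mem_filter, mem_range] at ht
    simp only [mem_sigma, mem_filter, mem_range]
    refine ⟨Nat.mod_lt t hk, Nat.lt_succ_of_le (Nat.div_le_div_right ht.1.le), ?_⟩
    rw [Nat.div_div_eq_div_mul, ← pow_mul, ← pow_add, Nat.mod_add_div]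
    exact ht.2
  · simp only [Sigma.mk.injEq, heq_eq_eq] at h
    rw [← Nat.mod_add_div t k, h.1, h.2, Nat.mod_add_div]

/-- **Few numbers have a block too often.** -/
theorem card_bad_le {b k : ℕ} (hb : 2 ≤ b) (hk : 0 < k) {c : ℝ} (hc : 1 / (b : ℝ) ^ k < c) :
    ∃ C τ : ℝ, 0 ≤ C ∧ 1 ≤ τ ∧ τ < b ∧ ∀ V < b ^ k, ∀ L : ℕ,
      (#((range (b ^ L)).filter fun m => c * (L + k : ℕ) < winCount b k V L m) : ℝ) ≤
        C * τ ^ L := by
  classical
  have hbR : (2 : ℝ) ≤ b := by exact_mod_cast hb
  set B : ℝ := (b : ℝ) ^ k with hB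
  have hB1 : 1 < B := one_lt_pow₀ (by linarith) hk.ne'
  have hcB : 1 < c * B := by rwa [div_lt_iff₀ (by linarith)] at hc
  set x : ℝ := 1 + (c * B - 1) / 2 with hx
  have hx1 : 1 < x := by linarith
  have hc0 : 0 < c := lt_trans (by positivity) hc
  set β : ℝ := max ((B - 1 + x) / x ^ c) 1 with hβ
  have hβ1 : 1 ≤ β := le_max_right _ _
  have hβB : β < B := by
    refine max_lt ?_ hB1
    rw [div_lt_iff₀ (Real.rpow_pos_of_pos (by linarith) c),
      ← Real.log_lt_log_iff (by linarith) (by positivity),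
      Real.log_mul (by linarith) (by positivity), Real.log_rpow (by linarith)]
    have h1 : Real.log ((B - 1 + x) / B) ≤ (B - 1 + x) / B - 1 :=
      Real.log_le_sub_one_of_pos (div_pos (by linarith) (by linarith))
    rw [Real.log_div (by linarith) (by linarith)] at h1
    have h2 := Real.one_sub_inv_le_log_of_pos (by linarith : 0 < x)
    have h3 : (B - 1 + x) / B - 1 < c * (1 - x⁻¹) := by
      rw [show (B - 1 + x) / B - 1 = (x - 1) / B by field_simp; ring,
        show c * (1 - x⁻¹) = c * (x - 1) / x by field_simp,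
        div_lt_div_iff₀ (by linarith) (by linarith)]
      nlinarith
    nlinarith [mul_le_mul_of_nonneg_left h2 hc0.le]
  refine ⟨(k : ℝ) * B * β, β ^ ((k : ℝ)⁻¹), by positivity,
    Real.one_le_rpow hβ1 (by positivity), ?_, fun V hV L => ?_⟩
  · rw [← Real.pow_rpow_inv_natCast (show (0 : ℝ) ≤ (b : ℝ) by linarith) hk.ne', ← hB]
    exact Real.rpow_lt_rpow (by linarith) hβB (by positivity)
  set J := L / k + 1 with hJ
  have hLJ : L ≤ k * J := by
    have := Nat.div_add_mod L k
    have := Nat.mod_lt L hk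
    rw [hJ, Nat.mul_add, Nat.mul_one]
    omega
  have hJL : k * J ≤ L + k := by
    have := Nat.mul_div_le L k
    rw [hJ, Nat.mul_add, Nat.mul_one]
    omega
  set T := fun r : ℕ => (range (b ^ r * (b ^ k) ^ J)).filter
    fun m => c * J < hits (b ^ k) V J (m / b ^ r) with hT
  have hsub : ((range (b ^ L)).filter fun m => c * (L + k : ℕ) < winCount b k V L m) ⊆
      (range k).biUnion T := by
    intro m hm
    rw [mem_filter, mem_range] at hm
    rw [mem_biUnion]
    by_contra hno
    push Not at hno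
    have hlt : ∀ r ∈ range k, (hits (b ^ k) V J (m / b ^ r) : ℝ) ≤ c * J := fun r hr => by
      have := hno r hr
      simp only [hT, mem_filter, mem_range, not_and, not_lt] at this
      refine this (hm.1.trans_le ?_)
      rw [← pow_mul, ← pow_add]
      exact Nat.pow_le_pow_right (by omega) (by omega)
    have h1 : (winCount b k V L m : ℝ) ≤ k * (c * J) := by
      refine le_trans (Nat.cast_le.2 (winCount_le_sum hk V L m)) ?_
      rw [Nat.cast_sum]
      refine (sum_le_sum hlt).trans_eq ?_
      rw [sum_const, card_range, nsmul_eq_mul]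
    have h2 : (k : ℝ) * J ≤ (L + k : ℕ) := by exact_mod_cast hJL
    nlinarith
  have hcard : ∀ r ∈ range k, (#(T r) : ℝ) ≤ B * β ^ J := by
    intro r hr
    have hsum : ∑ m ∈ range (b ^ r * (b ^ k) ^ J), x ^ hits (b ^ k) V J (m / b ^ r) =
        (b : ℝ) ^ r * (B - 1 + x) ^ J := by
      rw [mul_comm, sum_range_mul']
      have : ∀ q : ℕ, ∀ d ∈ range (b ^ r), x ^ hits (b ^ k) V J ((q * b ^ r + d) / b ^ r) =
          x ^ hits (b ^ k) V J q := fun q d hd => by
        rw [Nat.mul_comm q, Nat.mul_add_div (pow_pos (by omega) r),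
          Nat.div_eq_of_lt (mem_range.1 hd), Nat.add_zero]
      rw [sum_congr rfl fun q _ => sum_congr rfl (this q)]
      simp only [sum_const, card_range, nsmul_eq_mul, Nat.cast_pow]
      rw [← mul_sum, sum_pow_hits hV x J, Nat.cast_pow, ← hB]
    have hxc : 0 < x ^ c := Real.rpow_pos_of_pos (by linarith) c
    have h1 : (#(T r) : ℝ) * (x ^ c) ^ J ≤ (b : ℝ) ^ r * (B - 1 + x) ^ J := by
      rw [← hsum, ← nsmul_eq_mul]
      refine le_trans (card_nsmul_le_sum (T r)
        (fun m => x ^ hits (b ^ k) V J (m / b ^ r)) _ fun m hm => ?_)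
        (sum_le_sum_of_subset_of_nonneg (filter_subset _ _) fun m _ _ => by positivity)
      rw [← Real.rpow_mul_natCast (by linarith),
        ← Real.rpow_natCast x (hits (b ^ k) V J (m / b ^ r))]
      exact Real.rpow_le_rpow_of_exponent_le hx1.le (mem_filter.1 hm).2.le
    rw [← le_div_iff₀ (pow_pos hxc J), mul_div_assoc, ← div_pow] at h1
    refine h1.trans (mul_le_mul (pow_le_pow_right₀ (by linarith) (mem_range.1 hr).le)
      (pow_le_pow_left₀ (div_nonneg (by linarith) hxc.le) (le_max_left _ _) J)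
      (pow_nonneg (div_nonneg (by linarith) hxc.le) J) (by linarith))
  calc (#((range (b ^ L)).filter fun m => c * (L + k : ℕ) < winCount b k V L m) : ℝ)
      ≤ (#((range k).biUnion T) : ℝ) := Nat.cast_le.2 (card_le_card hsub)
    _ ≤ ∑ r ∈ range k, (#(T r) : ℝ) := by exact_mod_cast card_biUnion_le
    _ ≤ (k : ℝ) * (B * β ^ J) :=
        (sum_le_sum hcard).trans_eq (by rw [sum_const, card_range, nsmul_eq_mul])
    _ ≤ (k : ℝ) * B * β * (β ^ ((k : ℝ)⁻¹)) ^ L := by
        have h2 : β ^ J ≤ β * (β ^ ((k : ℝ)⁻¹)) ^ L := by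
          rw [hJ, pow_succ', ← Real.rpow_mul_natCast (by linarith), ← Real.rpow_natCast β (L / k)]
          refine mul_le_mul_of_nonneg_left (Real.rpow_le_rpow_of_exponent_le hβ1 ?_) (by linarith)
          rw [inv_mul_eq_div]
          exact Nat.cast_div_le
        rw [show (k : ℝ) * B * β * (β ^ ((k : ℝ)⁻¹)) ^ L =
          k * B * (β * (β ^ ((k : ℝ)⁻¹)) ^ L) by ring, ← mul_assoc]
        exact mul_le_mul_of_nonneg_left h2 (by positivity)

end FA.CopelandErdos

end
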