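import Fermat.Agent.CopelandErdos.Moments
import Fermat.Agent.NormalNumbers.Digits
import Mathlib.Analysis.Real.OfDigits

/-!
# The stream of the digits of a sequence
-/

set_option autoImplicit false

noncomputable section

open Finset
open FA.NormalNumbers (blockValue blockValue_lt blockValue_eq_iff)

namespace FA.CopelandErdos

/-- The number of digits of the `n`th term. -/
def wordLen (b : ℕ) (a : ℕ → ℕ) (n : ℕ) : ℕ := Nat.log b (a n) + 1

/-- Where the `n`th word begins. -/
def wordStart (b : ℕ) (a : ℕ → ℕ) (n : ℕ) : ℕ := ∑ m ∈ range n, wordLen b a m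

variable {b : ℕ} {a : ℕ → ℕ}

theorem wordStart_succ (n : ℕ) : wordStart b a (n + 1) = wordStart b a n + wordLen b a n :=
  sum_range_succ _ _

theorem le_wordStart : ∀ n : ℕ, n ≤ wordStart b a n
  | 0 => Nat.zero_le _
  | n + 1 => by
      have := le_wordStart n
      rw [wordStart_succ, wordLen]
      omega

theorem wordStart_mono : Monotone (wordStart b a) :=
  monotone_nat_of_le_succ fun n => by rw [wordStart_succ]; omega

theorem exists_lt_wordStart (b : ℕ) (a : ℕ → ℕ) (i : ℕ) : ∃ n, i < wordStart b a (n + 1) :=
  ⟨i, le_wordStart (i + 1)⟩

/-- The word with position `i`. -/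
def indexOf (b : ℕ) (a : ℕ → ℕ) (i : ℕ) : ℕ := Nat.find (exists_lt_wordStart b a i)

/-- The digit at position `i`. -/
def streamDigit (b : ℕ) (a : ℕ → ℕ) (i : ℕ) : ℕ :=
  a (indexOf b a i) / b ^ (wordStart b a (indexOf b a i + 1) - 1 - i) % b

theorem indexOf_start_add {n j : ℕ} (hj : j < wordLen b a n) :
    indexOf b a (wordStart b a n + j) = n := by
  refine (Nat.find_eq_iff _).2 ⟨by rw [wordStart_succ]; omega, fun m hm => ?_⟩
  have := wordStart_mono (b := b) (a := a) (show m + 1 ≤ n by omega)
  omega

theorem streamDigit_start_add {n j : ℕ} (hj : j < wordLen b a n) :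
    streamDigit b a (wordStart b a n + j) = a n / b ^ (wordLen b a n - 1 - j) % b := by
  rw [streamDigit, indexOf_start_add hj, wordStart_succ]
  congr 3
  omega

theorem streamDigit_lt (hb : 0 < b) (i : ℕ) : streamDigit b a i < b := Nat.mod_lt _ hb

theorem digits_flatten (hb : 1 < b) (ha : ∀ n, 0 < a n) (n : ℕ) :
    (List.range (wordStart b a n)).map (streamDigit b a) =
      ((List.range n).map fun m => (Nat.digits b (a m)).reverse).flatten := by
  induction n with
  | zero => simp [wordStart]
  | succ n ih =>
    rw [List.range_succ, List.map_append, List.flatten_append, ← ih, wordStart_succ,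
      List.range_add, List.map_append, List.map_singleton, List.flatten_singleton]
    congr 1
    have hlen : (Nat.digits b (a n)).length = wordLen b a n :=
      Nat.length_digits b (a n) hb (ha n).ne'
    refine List.ext_getElem ?_ fun j h1 h2 => ?_
    · simp [hlen]
    · simp only [List.length_map, List.length_range] at h1
      rw [List.getElem_map, List.getElem_map, List.getElem_range, streamDigit_start_add h1,
        List.getElem_reverse, ← Nat.getD_digits (a n) (wordLen b a n - 1 - j) hb,
        ← List.getElem_eq_getD (h := by omega) 0]
      congr 1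
      omega

/-- The block at position `i`. -/
def streamWindow (b : ℕ) (a : ℕ → ℕ) (k i : ℕ) : ℕ :=
  blockValue b k fun j => streamDigit b a (i + j)

theorem streamWindow_lt (hb : 0 < b) (k i : ℕ) : streamWindow b a k i < b ^ k :=
  blockValue_lt fun _ _ => streamDigit_lt hb _

theorem streamWindow_start_add {n : ℕ} : ∀ (k p : ℕ), p + k ≤ wordLen b a n →
    streamWindow b a k (wordStart b a n + p) =
      a n / b ^ (wordLen b a n - k - p) % b ^ k := by
  intro k
  induction k with
  | zero => intro p _; simp [streamWindow, blockValue, Nat.mod_one]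
  | succ k ih =>
    intro p hp
    have h := ih p (by omega)
    rw [streamWindow] at h
    rw [streamWindow, blockValue, h, add_assoc,
      streamDigit_start_add (by omega : p + k < wordLen b a n)]
    obtain ⟨t, ht⟩ : ∃ t, t = wordLen b a n - (k + 1) - p := ⟨_, rfl⟩
    rw [← ht, show wordLen b a n - k - p = t + 1 by omega,
      show wordLen b a n - 1 - (p + k) = t by omega, pow_succ b t, pow_succ' b k, Nat.mod_mul,
      ← Nat.div_div_eq_div_mul]
    ring

/-- Occurrences up to the end of a word. -/
theorem count_window_start_le {k : ℕ} (hk : 0 < k) (V : ℕ) : ∀ n : ℕ,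
    Nat.count (fun i => streamWindow b a k i = V) (wordStart b a n) ≤
      ∑ m ∈ range n, (winCount b k V (wordLen b a m) (a m) + k)
  | 0 => by simp [wordStart]
  | n + 1 => by
      rw [wordStart_succ, Nat.count_add, sum_range_succ]
      refine Nat.add_le_add (count_window_start_le hk V n) ?_
      set l := wordLen b a n with hl
      rw [Nat.count_eq_card_filter_range,
        ← card_filter_add_card_filter_not (fun p => p + k ≤ l)]
      refine Nat.add_le_add ?_ ?_
      · refine card_le_card_of_injOn (fun p => l - k - p) (fun p hp => ?_) fun p hp q hq h => ?_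
        · simp only [mem_coe, mem_filter, mem_range] at hp ⊢
          refine ⟨by omega, ?_⟩
          rw [← streamWindow_start_add k p hp.2]
          exact hp.1.2
        · simp only [mem_coe, mem_filter, mem_range] at hp hq
          simp only at h
          omega
      · refine le_trans (card_le_card (t := Ico (l + 1 - k) (l + 1 - k + k)) fun p hp => ?_) ?_
        · simp only [mem_filter, mem_range] at hp
          exact mem_Ico.2 (by omega)
        · rw [Nat.card_Ico]
          omega

end FA.CopelandErdos

end
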